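import Fermat.Agent.S37aux.Place
import Fermat.Agent.Igusa.Degree
import Fermat.Agent.GoodRed.Level

/-!
# The bare reduction map, unconditionally
-/

set_option autoImplicit false

noncomputable section

open ModularCurve HahnSeries AlgebraicCurve Module Fermat.Agent.GaussVal Fermat.Agent.Deuring
open Fermat.Agent.FF Fermat.Agent.RR
open scoped IntermediateField Fermat.Agent.GaussVal

namespace Fermat.Agent.S37aux

variable {A : ValuationSubring (AlgebraicClosure ℚ)} {ℓ : ℕ}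

/-- H3 -/
theorem degC (A : ValuationSubring (AlgebraicClosure ℚ)) (N : ℕ) [NeZero N]
    (hN : (N : RF A) ≠ 0) : DegC A N :=
  Igusa.finrank_full (RF A) N hN

theorem cast_ne_zero (hℓ : ℓ.Prime) (hA : A.LiesOverPrime ℓ) {N : ℕ} (hN : ¬ ℓ ∣ N) :
    (N : RF A) ≠ 0 := by
  have := charP_RF hℓ hA
  exact fun h0 => hN ((CharP.cast_eq_zero_iff (RF A) ℓ N).mp h0)

theorem genus_le_aux (hℓ : ℓ.Prime) (hA : A.LiesOverPrime ℓ) (N : ℕ) [NeZero N] (hN : ¬ ℓ ∣ N) :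
    genusFF (AlgebraicClosure ℚ) (modularFunctionFieldBar (GoodRed.auxLevel ℓ N)) ≤
      genusFF (RF A) (FC A (GoodRed.auxLevel ℓ N)) :=
  GoodRed.genus_le_aux hℓ hA N hN (fun M hM h =>
    haveI : NeZero M := ⟨hM⟩
    Igusa.finrank_full (RF A) M h)

/-- **The bare reduction map** -/
theorem bareRed (N : ℕ) [NeZero N] (ℓ : ℕ) (hℓ : ℓ.Prime)
    (A : ValuationSubring (AlgebraicClosure ℚ)) (hA : A.LiesOverPrime ℓ) (hN : ¬ ℓ ∣ N) :
    BareRed N ℓ hℓ A := by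
  have : NeZero (GoodRed.auxLevel ℓ N) := ⟨GoodRed.auxLevel_ne_zero (NeZero.ne N)⟩
  exact bareRed_of hℓ hA (GoodRed.dvd_auxLevel ℓ N) hN (degC A N (cast_ne_zero hℓ hA hN))
    (degC A _ (cast_ne_zero hℓ hA (GoodRed.not_dvd_auxLevel hℓ hN))) (genus_le_aux hℓ hA N hN)

/-- **(RI)** The reduction inputs at level `N`. -/
theorem reductionInputsModL (hℓ : ℓ.Prime) (hA : A.LiesOverPrime ℓ) (N : ℕ) [NeZero N]
    (hN : ¬ ℓ ∣ N) (hdiv : ∀ n : ℕ, n ≠ 0 → ∀ x : JZero N, ∃ y : JZero N, n • y = x) :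
    ReductionInputsModL A N := by
  have : NeZero (GoodRed.auxLevel ℓ N) := ⟨GoodRed.auxLevel_ne_zero (NeZero.ne N)⟩
  exact reductionInputsModL_of (GoodRed.dvd_auxLevel ℓ N) hℓ hA (degC A N (cast_ne_zero hℓ hA hN))
    (degC A _ (cast_ne_zero hℓ hA (GoodRed.not_dvd_auxLevel hℓ hN))) (genus_le_aux hℓ hA N hN) hdiv

end Fermat.Agent.S37aux
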