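import Fermat.Agent.GaussVal.Field
import Fermat.Prelude.Def_ModularCurve_HeckeModule

/-!
# The decomposition group acting on the Gauss ring
-/

set_option autoImplicit false

noncomputable section

open ModularCurve HahnSeries Fermat.Agent.GaussVal

namespace Fermat.Agent.S37aux

section Transport

variable {K : Type*} [Field K] {A : ValuationSubring K}

/-- Transport of the Gauss reduction along a ring endomorphism preserving `A`. -/
theorem gaussRed_coeffMap (s : K →+* K) (sA : A →+* A) (sk : IsLocalRing.ResidueField A →+*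
    IsLocalRing.ResidueField A) (h1 : ∀ a : A, s a = sA a)
    (h2 : ∀ a : A, IsLocalRing.residue A (sA a) = sk (IsLocalRing.residue A a))
    (y : gaussSubring A) :
    ∃ h : coeffMap s (y : LaurentSeries K) ∈ gaussSubring A,
      gaussRed A ⟨_, h⟩ = coeffMap sk (gaussRed A y) := by
  obtain ⟨Y₁, Y₂, hY, hy⟩ := mem_gaussSubring.mp y.2
  have hi : ∀ Y : LaurentSeries A, incl A (coeffMap sA Y) = coeffMap s (incl A Y) := by
    intro Y
    ext n
    simp only [coeffMap_coeff]
    exact (h1 _).symm
  have hr : ∀ Y : LaurentSeries A, redS A (coeffMap sA Y) = coeffMap sk (redS A Y) := by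
    intro Y
    ext n
    simp only [coeffMap_coeff]
    exact h2 _
  have hY' : redS A (coeffMap sA Y₂) ≠ 0 := by
    rw [hr]
    exact (map_ne_zero_iff _ (RingHom.injective _)).mpr hY
  have hy' : coeffMap s (y : LaurentSeries K) * incl A (coeffMap sA Y₂) =
      incl A (coeffMap sA Y₁) := by
    rw [hi, hi, ← map_mul, hy]
  have hmem : coeffMap s (y : LaurentSeries K) ∈ gaussSubring A :=
    mem_gaussSubring.mpr ⟨_, _, hY', hy'⟩
  refine ⟨hmem, ?_⟩
  have e1 : gaussRed A ⟨coeffMap s (y : LaurentSeries K), hmem⟩ =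
      redS A (coeffMap sA Y₁) / redS A (coeffMap sA Y₂) := gaussRed_eq hY' hy'
  rw [e1, hr, hr, ← map_div₀, gaussRed_eq hY hy]

end Transport

section Decomp

variable {L : Type*} [Field L] [Algebra ℚ L] {A : ValuationSubring L}

theorem gaussRed_decomposition (σ : A.decompositionSubgroup ℚ) (y : gaussSubring A) :
    ∃ h : coeffMap (((σ : L ≃ₐ[ℚ] L) : L →+* L)) (y : LaurentSeries L) ∈ gaussSubring A,
      gaussRed A ⟨_, h⟩ =
        coeffMap (MulSemiringAction.toRingHom (A.decompositionSubgroup ℚ)
          (IsLocalRing.ResidueField A) σ) (gaussRed A y) :=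
  gaussRed_coeffMap _ (MulSemiringAction.toRingHom (A.decompositionSubgroup ℚ) A σ)
    (MulSemiringAction.toRingHom (A.decompositionSubgroup ℚ) (IsLocalRing.ResidueField A) σ)
    (fun _ => rfl) (fun _ => rfl) y

/-- Inertia acts trivially on the Gauss reduction. -/
theorem gaussRed_inertia {σ : L ≃ₐ[ℚ] L} (hσ : σ ∈ A.inertiaSubgroupIn ℚ) (y : gaussSubring A) :
    ∃ h : coeffMap (σ : L →+* L) (y : LaurentSeries L) ∈ gaussSubring A,
      gaussRed A ⟨_, h⟩ = gaussRed A y := by
  obtain ⟨τ, hτ, rfl⟩ := hσ
  obtain ⟨h, h1⟩ := gaussRed_decomposition τ y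
  refine ⟨h, h1.trans ?_⟩
  have h2 : MulSemiringAction.toRingHom (A.decompositionSubgroup ℚ)
      (IsLocalRing.ResidueField A) τ = RingHom.id _ := by
    ext x
    have h3 := DFunLike.congr_fun (MonoidHom.mem_ker.mp hτ) x
    exact h3
  rw [h2, coeffMap_id]

/-- A Frobenius element acts on the Gauss reduction by the Frobenius on coefficients. -/
theorem gaussRed_frobenius {σ : L ≃ₐ[ℚ] L} {ℓ : ℕ} (hσ : A.IsFrobeniusAt σ ℓ)
    [Fact ℓ.Prime] [CharP (IsLocalRing.ResidueField A) ℓ] (y : gaussSubring A) :
    ∃ h : coeffMap (σ : L →+* L) (y : LaurentSeries L) ∈ gaussSubring A,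
      gaussRed A ⟨_, h⟩ = coeffMap (frobenius (IsLocalRing.ResidueField A) ℓ) (gaussRed A y) := by
  obtain ⟨h, h1⟩ := gaussRed_decomposition ⟨σ, hσ.mem_decompositionSubgroup⟩ y
  refine ⟨h, h1.trans ?_⟩
  have h2 : MulSemiringAction.toRingHom (A.decompositionSubgroup ℚ)
      (IsLocalRing.ResidueField A) ⟨σ, hσ.mem_decompositionSubgroup⟩ =
      frobenius (IsLocalRing.ResidueField A) ℓ := by
    ext x
    exact hσ.smul_residue_eq x
  rw [h2]

end Decomp

section Frob

variable (k : Type*) [Field k] (ℓ : ℕ) [Fact ℓ.Prime] [CharP k ℓ] [PerfectRing k ℓ] (N : ℕ)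

theorem coeffMap_mem_fullC {k' : Type*} [Field k'] (s : k →+* k') {x : LaurentSeries k}
    (hx : x ∈ modularFunctionFieldFullC k N) :
    coeffMap s x ∈ modularFunctionFieldFullC k' N := by
  replace hx : x ∈ Subfield.closure (Set.range (algebraMap k (LaurentSeries k)) ∪
      divisorExpansionsC k N) := hx
  induction hx using Subfield.closure_induction with
  | mem y hy =>
    rcases hy with ⟨a, rfl⟩ | ⟨d, hne, hd, rfl⟩
    · have h1 : coeffMap s (algebraMap k (LaurentSeries k) a) =
          algebraMap k' (LaurentSeries k') (s a) := by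
        rw [algebraMap_laurentSeries_eq_single, algebraMap_laurentSeries_eq_single,
          coeffMap_single]
      rw [h1]
      exact (modularFunctionFieldFullC k' N).algebraMap_mem _
    · rw [coeffMap_qExpand, coeffMap_jqModC]
      exact jqModCd_mem_full k' N hd
  | one => rw [map_one]; exact one_mem _
  | add x y _ _ hx hy => rw [map_add]; exact add_mem hx hy
  | neg x _ hx => rw [map_neg]; exact neg_mem hx
  | inv x _ hx => rw [map_inv₀]; exact inv_mem hx
  | mul x y _ _ hx hy => rw [map_mul]; exact mul_mem hx hy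

/-- coefficientwise Frobenius -/
def frobRingAut : modularFunctionFieldFullC k N ≃+* modularFunctionFieldFullC k N where
  toFun x := ⟨coeffMap (frobenius k ℓ) x, coeffMap_mem_fullC k N _ x.2⟩
  invFun x := ⟨coeffMap ((frobeniusEquiv k ℓ).symm : k →+* k) x, coeffMap_mem_fullC k N _ x.2⟩
  left_inv x := Subtype.ext <| by
    change coeffMap _ (coeffMap _ (x : LaurentSeries k)) = _
    rw [coeffMap_coeffMap, coeffMap_congr (g := RingHom.id k), coeffMap_id]
    ext a
    exact (frobeniusEquiv k ℓ).symm_apply_apply a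
  right_inv x := Subtype.ext <| by
    change coeffMap _ (coeffMap _ (x : LaurentSeries k)) = _
    rw [coeffMap_coeffMap, coeffMap_congr (g := RingHom.id k), coeffMap_id]
    ext a
    exact (frobeniusEquiv k ℓ).apply_symm_apply a
  map_mul' x y := Subtype.ext (map_mul (coeffMap (frobenius k ℓ)) _ _)
  map_add' x y := Subtype.ext (map_add (coeffMap (frobenius k ℓ)) _ _)

/-- coefficientwise Frobenius, as a semilinear automorphism -/
def frobAut : AlgebraicCurve.SemilinearAut k (modularFunctionFieldFullC k N) :=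
  ⟨(frobRingAut k ℓ N, frobeniusEquiv k ℓ), fun a => Subtype.ext (by
    change coeffMap (frobenius k ℓ) (algebraMap k (LaurentSeries k) a) =
      algebraMap k (LaurentSeries k) (frobeniusEquiv k ℓ a)
    rw [algebraMap_laurentSeries_eq_single, algebraMap_laurentSeries_eq_single, coeffMap_single]
    rfl)⟩

theorem coe_frobAut_smul (x : modularFunctionFieldFullC k N) :
    ((frobAut k ℓ N • x : modularFunctionFieldFullC k N) : LaurentSeries k) =
      coeffMap (frobenius k ℓ) (x : LaurentSeries k) := rfl

theorem coe_frobAut_inv_smul (x : modularFunctionFieldFullC k N) :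
    coeffMap (frobenius k ℓ) (((frobAut k ℓ N)⁻¹ • x : modularFunctionFieldFullC k N) :
      LaurentSeries k) = (x : LaurentSeries k) := by
  rw [← coe_frobAut_smul, smul_inv_smul]

end Frob

end Fermat.Agent.S37aux
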