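import Fermat.Agent.GaussVal.Modular
import Fermat.Agent.TEll.Gauss
import Fermat.Agent.TEll.HeckeDiv
import Fermat.Agent.RedInj.OfGauss
import Fermat.Agent.Deuring.Genus
import Fermat.Agent.Deuring.Kummer
import Fermat.Agent.S37aux.Galois

/-!
# The concrete reduction data of level `N`
-/

set_option autoImplicit false

noncomputable section

open ModularCurve HahnSeries AlgebraicCurve Module Fermat.Agent.GaussVal Fermat.Agent.Deuring
open Fermat.Agent.FF
open scoped IntermediateField Fermat.Agent.GaussVal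

namespace Fermat.Agent.S37aux

/-- residue field -/
abbrev RF (A : ValuationSubring (AlgebraicClosure ℚ)) : Type := IsLocalRing.ResidueField A

/-- function field of `X₀(N)` in characteristic `ℓ` -/
abbrev FC (A : ValuationSubring (AlgebraicClosure ℚ)) (N : ℕ) :
    IntermediateField (RF A) (LaurentSeries (RF A)) :=
  modularFunctionFieldFullC (RF A) N

/-- the function `j` on `X₀(N)` in characteristic `ℓ` -/
def jC (A : ValuationSubring (AlgebraicClosure ℚ)) (N : ℕ) : FC A N := jEl (RF A) (FC A N) N rfl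

/-- The degree theorem in characteristic `ℓ` (H3), as a proposition. -/
def DegC (A : ValuationSubring (AlgebraicClosure ℚ)) (N : ℕ) : Prop :=
  finrank (RF A)⟮jC A N⟯ (FC A N) = dedekindPsi N

instance isAlgClosed_RF (A : ValuationSubring (AlgebraicClosure ℚ)) : IsAlgClosed (RF A) := by
  refine IsAlgClosed.of_exists_root _ fun f hf hirr => ?_
  have hlift : f ∈ Polynomial.lifts (IsLocalRing.residue A) := by
    rw [Polynomial.mem_lifts]
    obtain ⟨g, hg⟩ := Polynomial.map_surjective (IsLocalRing.residue A)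
      IsLocalRing.residue_surjective f
    exact ⟨g, hg⟩
  obtain ⟨g, hg, hdeg, hmon⟩ := Polynomial.lifts_and_degree_eq_and_monic hlift hf
  have hdeg0 : (g.map (algebraMap A (AlgebraicClosure ℚ))).degree ≠ 0 := by
    rw [hmon.degree_map, hdeg]
    exact (Polynomial.degree_pos_of_irreducible hirr).ne'
  obtain ⟨x, hx⟩ := IsAlgClosed.exists_root _ hdeg0
  have hxint : IsIntegral A x := by
    refine ⟨g, hmon, ?_⟩
    rw [Polynomial.IsRoot.def, Polynomial.eval_map] at hx
    exact hx
  obtain ⟨r, rfl⟩ := IsIntegrallyClosed.isIntegral_iff.mp hxint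
  refine ⟨IsLocalRing.residue A r, ?_⟩
  rw [Polynomial.IsRoot.def, Polynomial.eval_map, Polynomial.eval₂_at_apply] at hx
  have h0 : g.eval r = 0 := by
    exact (map_eq_zero_iff _ (IsFractionRing.injective A (AlgebraicClosure ℚ))).mp hx
  rw [← hg, Polynomial.eval_map, Polynomial.eval₂_at_apply, h0, map_zero]

theorem transcendental_jC (A : ValuationSubring (AlgebraicClosure ℚ)) (N : ℕ) :
    Transcendental (RF A) (jC A N) := transcendental_jEl _ _ _ _

theorem DegC.finiteDimensional {A : ValuationSubring (AlgebraicClosure ℚ)} {N : ℕ} [NeZero N]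
    (h : DegC A N) : FiniteDimensional (RF A)⟮jC A N⟯ (FC A N) := by
  apply FiniteDimensional.of_finrank_pos
  rw [show finrank (RF A)⟮jC A N⟯ (FC A N) = dedekindPsi N from h]
  exact TEll.dedekindPsi_pos N

theorem DegC.isFF {A : ValuationSubring (AlgebraicClosure ℚ)} {N : ℕ} [NeZero N]
    (h : DegC A N) : IsFF (RF A) (FC A N) := by
  have := h.finiteDimensional
  exact IsFF.of_finite (transcendental_jC A N)

theorem bar_eq (N : ℕ) :
    modularFunctionFieldBar N = modularFunctionFieldFullC (AlgebraicClosure ℚ) N :=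
  X0Emb.FF_eq N

theorem jEl_eq (N : ℕ) :
    jEl (AlgebraicClosure ℚ) (modularFunctionFieldBar N) N (bar_eq N) = X0Emb.jF N :=
  Subtype.ext (X0Emb.coe_jF N).symm

theorem finrank_jEl (N : ℕ) [NeZero N] :
    finrank (AlgebraicClosure ℚ)⟮jEl (AlgebraicClosure ℚ) (modularFunctionFieldBar N) N (bar_eq N)⟯
      (modularFunctionFieldBar N) = dedekindPsi N := by
  rw [jEl_eq]
  exact TEll.finrank_jF0 N

theorem finiteDimensional_jEl (N : ℕ) [NeZero N] : FiniteDimensional
    (AlgebraicClosure ℚ)⟮jEl (AlgebraicClosure ℚ) (modularFunctionFieldBar N) N (bar_eq N)⟯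
      (modularFunctionFieldBar N) := by
  rw [jEl_eq]
  exact TEll.finiteDimensional_jF0 N

theorem isAlgebraic_QQ : @Algebra.IsAlgebraic ℚ (AlgebraicClosure ℚ) _ _
    DivisionRing.toRatAlgebra := by
  have h : @Algebra.IsAlgebraic ℚ (AlgebraicClosure ℚ) _ _ (AlgebraicClosure.instAlgebra ℚ) :=
    AlgebraicClosure.isAlgebraic ℚ
  rwa [Subsingleton.elim (AlgebraicClosure.instAlgebra ℚ : Algebra ℚ (AlgebraicClosure ℚ))
    DivisionRing.toRatAlgebra] at h

attribute [local instance] isAlgebraic_QQ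

variable {A : ValuationSubring (AlgebraicClosure ℚ)} {ℓ : ℕ}

/-- **The concrete reduction data of level `N`.** -/
def gauss (hℓ : ℓ.Prime) (hA : A.LiesOverPrime ℓ) (N : ℕ) [NeZero N] (h : DegC A N) :
    GaussData (AlgebraicClosure ℚ) (modularFunctionFieldBar N) (RF A) (FC A N) :=
  haveI := finiteDimensional_jEl N
  modGauss hℓ hA (modularFunctionFieldBar N) N (bar_eq N)
    ((finrank_jEl N).le.trans (le_of_eq (show finrank (RF A)⟮jC A N⟯ (FC A N) = _ from h).symm))

variable {hℓ : ℓ.Prime} {hA : A.LiesOverPrime ℓ} {N : ℕ} [NeZero N] {h : DegC A N}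

theorem mem_gauss_O {x : modularFunctionFieldBar N} :
    x ∈ (gauss hℓ hA N h).O ↔ (x : LaurentSeries (AlgebraicClosure ℚ)) ∈ gaussSubring A := Iff.rfl

theorem coe_gauss_ρ {x : modularFunctionFieldBar N} (hx : x ∈ (gauss hℓ hA N h).O) :
    ((gauss hℓ hA N h).ρ ⟨x, hx⟩ : LaurentSeries (RF A)) =
      gaussRed A ⟨(x : LaurentSeries (AlgebraicClosure ℚ)), hx⟩ := by
  have := finiteDimensional_jEl N
  exact coe_modGauss_ρ (hℓ := hℓ) (hA := hA) (hE := bar_eq N)
    (hdeg := (finrank_jEl N).le.trans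
      (le_of_eq (show finrank (RF A)⟮jC A N⟯ (FC A N) = _ from h).symm)) ⟨x, hx⟩

end Fermat.Agent.S37aux
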