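import Fermat.Agent.S37aux.Bare
import Fermat.Agent.S27.Export

/-!
# `ReductionInputsModL`, unconditionally
-/

set_option autoImplicit false

noncomputable section

open ModularCurve HahnSeries AlgebraicCurve Module Fermat.Agent.GaussVal Fermat.Agent.Deuring
open Fermat.Agent.FF Fermat.Agent.RR
open scoped IntermediateField Fermat.Agent.GaussVal

namespace Fermat.Agent.S37aux

/-- `J₀(N)` is divisible. -/
theorem jZero_divisible (N : ℕ) [NeZero N] (n : ℕ) (hn : n ≠ 0) (x : JZero N) :
    ∃ y : JZero N, n • y = x :=
  (S27.pic0_torsion_divisible (AlgebraicClosure ℚ) (modularFunctionFieldBar N) n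
    (by exact_mod_cast hn)).2 x

/-- **(RI)** The reduction inputs at level `N` hold at every place of good reduction. -/
theorem reductionInputsModL' {A : ValuationSubring (AlgebraicClosure ℚ)} {ℓ : ℕ} (hℓ : ℓ.Prime)
    (hA : A.LiesOverPrime ℓ) (N : ℕ) [NeZero N] (hN : ¬ ℓ ∣ N) : ReductionInputsModL A N :=
  reductionInputsModL hℓ hA N hN (jZero_divisible N)

end Fermat.Agent.S37aux
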