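/-
S37, step (0): from a bare reduction map (no Hecke structure on the target) to
`SpecializationExists`, by co-induction.
-/
import Fermat.Prelude.Def_ModularCurve_HeckeModule

set_option autoImplicit false

noncomputable section

namespace Fermat.Agent.S37aux

open ModularCurve

section Coind

variable (B : Type) [AddCommGroup B]

/-- The co-induced group `Hom(𝕋, B)`. -/
def Coind : Type := HeckeAlg →+ B

instance : AddCommGroup (Coind B) := inferInstanceAs (AddCommGroup (HeckeAlg →+ B))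

variable {B}

/-- The value of an element of the co-induced module. -/
def Coind.ev (φ : Coind B) (T : HeckeAlg) : B := (show HeckeAlg →+ B from φ) T

@[ext]
theorem Coind.ext {φ ψ : Coind B} (h : ∀ T, φ.ev T = ψ.ev T) : φ = ψ :=
  AddMonoidHom.ext h

/-- constructor -/
def Coind.mk (f : HeckeAlg → B) (h : ∀ S T, f (S + T) = f S + f T) : Coind B :=
  AddMonoidHom.mk' f h

@[simp] theorem Coind.ev_mk (f : HeckeAlg → B) (h : ∀ S T, f (S + T) = f S + f T) (T : HeckeAlg) :
    (Coind.mk f h).ev T = f T := rfl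

@[simp] theorem Coind.ev_add (φ ψ : Coind B) (T : HeckeAlg) :
    (φ + ψ).ev T = φ.ev T + ψ.ev T := rfl

@[simp] theorem Coind.ev_sub (φ ψ : Coind B) (T : HeckeAlg) :
    (φ - ψ).ev T = φ.ev T - ψ.ev T := rfl

@[simp] theorem Coind.ev_zero (T : HeckeAlg) : (0 : Coind B).ev T = 0 := rfl

@[simp] theorem Coind.ev_nsmul (n : ℕ) (φ : Coind B) (T : HeckeAlg) :
    (n • φ).ev T = n • φ.ev T := rfl

theorem Coind.ev_add_right (φ : Coind B) (S T : HeckeAlg) :
    φ.ev (S + T) = φ.ev S + φ.ev T := map_add (show HeckeAlg →+ B from φ) S T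

@[simp] theorem Coind.ev_zero_right (φ : Coind B) : φ.ev 0 = 0 :=
  map_zero (show HeckeAlg →+ B from φ)

instance : SMul HeckeAlg (Coind B) where
  smul T φ := Coind.mk (fun S => φ.ev (S * T)) fun S S' => by
    rw [add_mul, Coind.ev_add_right]

@[simp] theorem Coind.ev_smul (T : HeckeAlg) (φ : Coind B) (S : HeckeAlg) :
    (T • φ).ev S = φ.ev (S * T) := rfl

instance : Module HeckeAlg (Coind B) where
  one_smul φ := by ext S; simp
  mul_smul T T' φ := by
    ext S
    simp only [Coind.ev_smul]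
    rw [mul_assoc]
  smul_zero T := by ext S; simp
  smul_add T φ ψ := by ext S; simp
  add_smul T T' φ := by
    ext S
    simp only [Coind.ev_smul, Coind.ev_add, mul_add, Coind.ev_add_right]
  zero_smul φ := by ext S; simp

end Coind

section Main

variable {K L : Type*} [Field K] [Field L] [Algebra K L]
variable (p : ℕ) (J : Type*) [AddCommGroup J] [Module HeckeAlg J]
  [DistribMulAction (L ≃ₐ[K] L) J] [SMulCommClass (L ≃ₐ[K] L) HeckeAlg J]

variable {B : Type} [AddCommGroup B] (ℓ : ℕ) (hℓ : ℓ.Prime) (Fr : B →+ B)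

/-- The sub-`𝕋`-module of the co-induced module on which the quadratic relation holds. -/
def relSub : Submodule HeckeAlg (Coind B) where
  carrier := {φ | ∀ T : HeckeAlg,
    Fr (Fr (φ.ev T)) - Fr (φ.ev (T * heckeGen ⟨ℓ, hℓ⟩)) + ℓ • φ.ev T = 0}
  zero_mem' := fun T => by simp
  add_mem' := by
    intro φ ψ hφ hψ T
    have h1 := hφ T
    have h2 := hψ T
    simp only [Coind.ev_add, map_add, nsmul_add]
    calc _ = (Fr (Fr (φ.ev T)) - Fr (φ.ev (T * heckeGen ⟨ℓ, hℓ⟩)) + ℓ • φ.ev T) +
        (Fr (Fr (ψ.ev T)) - Fr (ψ.ev (T * heckeGen ⟨ℓ, hℓ⟩)) + ℓ • ψ.ev T) := by abel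
      _ = 0 := by rw [h1, h2, add_zero]
  smul_mem' := by
    intro S φ hφ T
    have h1 := hφ (T * S)
    simp only [Coind.ev_smul]
    rwa [show T * heckeGen ⟨ℓ, hℓ⟩ * S = T * S * heckeGen ⟨ℓ, hℓ⟩ by ring]

/-- Frobenius on the target. -/
def frobSub : relSub ℓ hℓ Fr →+ relSub ℓ hℓ Fr where
  toFun φ := ⟨Coind.mk (fun T => Fr (φ.1.ev T)) fun S T => by rw [Coind.ev_add_right, map_add],
    fun T => by
      have h := congrArg Fr (φ.2 T)
      simp only [Coind.ev_mk]
      simpa only [map_add, map_sub, map_nsmul, map_zero] using h⟩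
  map_zero' := by ext T; simp
  map_add' φ ψ := by ext T; simp

include hℓ in
/-- **Step (0)**: bare reduction data give the existence of a specialization. -/
theorem exists_specialization (A : ValuationSubring L) (red : J →+ B)
    (h1 : ∀ σ ∈ A.inertiaSubgroupIn K, ∀ x : J, red (σ • x) = red x)
    (h2 : ∀ σ : L ≃ₐ[K] L, A.IsFrobeniusAt σ ℓ → ∀ x : J, red (σ • x) = Fr (red x))
    (h3 : ∀ x : J, Fr (Fr (red x)) - Fr (red (heckeGen ⟨ℓ, hℓ⟩ • x)) + ℓ • red x = 0)
    (h4 : ∀ x : J, (∃ n : ℕ, p ^ n • x = 0) → red x = 0 → x = 0) :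
    ∃ (J' : Type) (_ : AddCommGroup J') (_ : Module HeckeAlg J') (sp : J →+ J')
        (F : J' →+ J'),
        IsSpecialization (K := K) p J J' A ℓ sp F ∧ SpecialFibreRelation J' ℓ hℓ F := by
  refine ⟨relSub ℓ hℓ Fr, inferInstance, inferInstance,
    { toFun := fun x => ⟨Coind.mk (fun T => red (T • x)) fun S T => by rw [add_smul, map_add],
        fun T => ?_⟩
      map_zero' := ?_
      map_add' := ?_ }, frobSub ℓ hℓ Fr, ⟨?_, ?_, ?_, ?_⟩, ?_⟩
  · simp only [Coind.ev_mk]
    have := h3 (T • x)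
    rwa [← mul_smul, mul_comm] at this
  · ext T; simp
  · intro x y
    ext T
    simp
  · intro T x
    ext S
    simp [mul_smul]
  · intro σ hσ x
    ext S
    simp only [AddMonoidHom.coe_mk, ZeroHom.coe_mk, Coind.ev_mk]
    rw [← smul_comm σ S x, h1 σ hσ]
  · intro σ hσ x
    ext S
    simp only [AddMonoidHom.coe_mk, ZeroHom.coe_mk, Coind.ev_mk, frobSub]
    rw [← smul_comm σ S x, h2 σ hσ]
  · intro x hx h
    refine h4 x hx ?_
    have h5 := congrArg (fun φ : relSub ℓ hℓ Fr => φ.1.ev 1) h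
    simpa using h5
  · intro φ
    ext T
    exact φ.2 T

end Main

end Fermat.Agent.S37aux

end
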