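import Fermat.Agent.S37aux.Concrete
import Fermat.Agent.S37aux.Coind

/-!
# Final assembly of S37
-/

set_option autoImplicit false

noncomputable section

open ModularCurve HahnSeries AlgebraicCurve Module Fermat.Agent.GaussVal Fermat.Agent.Deuring
open Fermat.Agent.FF Fermat.Agent.RR
open scoped IntermediateField Fermat.Agent.GaussVal

namespace Fermat.Agent.S37aux

/-- **A bare reduction map** for `J₀(N)` at `A` (over `ℓ`): no Hecke structure on the target. -/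
def BareRed (N : ℕ) [NeZero N] (ℓ : ℕ) (hℓ : ℓ.Prime)
    (A : ValuationSubring (AlgebraicClosure ℚ)) : Prop :=
  ∃ (B : Type) (_ : AddCommGroup B) (red : JZero N →+ B) (Fr : B →+ B),
    (∀ σ ∈ A.inertiaSubgroupIn ℚ, ∀ x : JZero N, red (σ • x) = red x) ∧
    (∀ σ : AlgebraicClosure ℚ ≃ₐ[ℚ] AlgebraicClosure ℚ, A.IsFrobeniusAt σ ℓ →
      ∀ x : JZero N, red (σ • x) = Fr (red x)) ∧
    (∀ x : JZero N, Fr (Fr (red x)) - Fr (red (heckeOperatorBar N ⟨ℓ, hℓ⟩ x)) + ℓ • red x = 0) ∧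
    (∀ m : ℕ, ¬ ℓ ∣ m → ∀ x : JZero N, m • x = 0 → red x = 0 → x = 0)

theorem charP_RF {A : ValuationSubring (AlgebraicClosure ℚ)} {ℓ : ℕ} (hℓ : ℓ.Prime)
    (hA : A.LiesOverPrime ℓ) : CharP (RF A) ℓ :=
  have := Fact.mk hℓ
  TEll.charP_residueField A ℓ hA

/-- Bare reduction map from the degree theorem and the genus inequality. -/
theorem bareRed_of {A : ValuationSubring (AlgebraicClosure ℚ)} {ℓ : ℕ} (hℓ : ℓ.Prime)
    (hA : A.LiesOverPrime ℓ) {N N' : ℕ} [NeZero N] [NeZero N'] (hNN' : N ∣ N') (hN : ¬ ℓ ∣ N)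
    (h : DegC A N) (h' : DegC A N')
    (hg : genusFF (AlgebraicClosure ℚ) (modularFunctionFieldBar N') ≤ genusFF (RF A) (FC A N')) :
    BareRed N ℓ hℓ A := by
  have := h'.isFF
  have := Fact.mk hℓ
  have := charP_RF hℓ hA
  have : PerfectRing (RF A) ℓ := PerfectField.toPerfectRing ℓ
  obtain ⟨R, _⟩ := (gauss hℓ hA N' h').exists_redMap_of_le hg
  exact ⟨(setup hℓ hA hNN' h h' R).Tgt, inferInstance, (setup hℓ hA hNN' h h' R).red,
    Frob hℓ hA hNN' h h' R, fun σ hσ x => setup_inertia hℓ hA hNN' h h' R hσ x,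
    fun σ hσ x => setup_frobenius hℓ hA hNN' h h' R hσ x,
    fun x => setup_hecke hℓ hA hNN' h h' R hN x,
    fun m hm x hx hr => setup_injective hℓ hA hNN' h h' R hg hm x hx hr⟩

/-- S37 from bare reduction maps. -/
theorem specializationExists_of (N p : ℕ) [NeZero N]
    (hcomm : ModularCurve.HeckeOperatorsCommuteBar N)
    (H : ∀ (ℓ : ℕ) (hℓ : ℓ.Prime), ¬ ℓ ∣ N → ∀ A : ValuationSubring (AlgebraicClosure ℚ),
      A.LiesOverPrime ℓ → BareRed N ℓ hℓ A) :
    letI := ModularCurve.heckeModuleBar N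
    ∀ (_ : SMulCommClass (AlgebraicClosure ℚ ≃ₐ[ℚ] AlgebraicClosure ℚ) ModularCurve.HeckeAlg
      (ModularCurve.JZero N)),
      ModularCurve.SpecializationExists (K := ℚ) (L := AlgebraicClosure ℚ) N p
        (ModularCurve.JZero N) := by
  let _ := ModularCurve.heckeModuleBar N
  intro hsc ℓ hℓ hN A hA
  obtain ⟨B, _, red, Fr, h1, h2, h3, h4⟩ := H ℓ hℓ (fun h => hN (h.mul_right p)) A hA
  refine exists_specialization p (JZero N) ℓ hℓ Fr A red h1 h2 (fun x => ?_) (fun x hx hr => ?_)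
  · have h5 := heckeModuleBar_heckeGen_smul hcomm ⟨ℓ, hℓ⟩ x
    exact (congrArg (fun z => Fr (Fr (red x)) - Fr (red z) + ℓ • red x) h5).trans (h3 x)
  · obtain ⟨n, hn⟩ := hx
    exact h4 (p ^ n) (fun h => hN ((hℓ.dvd_of_dvd_pow h).mul_left N)) x hn hr

end Fermat.Agent.S37aux
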