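import Fermat.Agent.S37aux.Level

/-!
# The bare reduction map on `J₀(N)`
-/

set_option autoImplicit false

noncomputable section

open ModularCurve HahnSeries AlgebraicCurve Module Fermat.Agent.GaussVal Fermat.Agent.Deuring
open Fermat.Agent.FF Fermat.Agent.RR
open scoped IntermediateField Fermat.Agent.GaussVal

namespace Fermat.Agent.S37aux

section Generic

variable {k M : Type*} [Field k] [Field M] [Algebra k M] {E E' : IntermediateField k M}

theorem finrank_restrict (h : E ≤ E') (x : E) :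
    finrank k⟮x⟯ E * finrank (IntermediateField.restrict h) E' =
      finrank k⟮IntermediateField.inclusion h x⟯ E' := by
  have h1 := TEll.finrank_mul_finrankAlong (IntermediateField.inclusion h) x
  rw [← h1]
  congr 1
  unfold finrankAlong
  symm
  let _ := algebraAlong (IntermediateField.inclusion h)
  exact Algebra.finrank_eq_of_equiv_equiv
    (IntermediateField.restrictAlgEquiv h).toRingEquiv (RingEquiv.refl _) (RingHom.ext fun _ => rfl)

end Generic

/-- inclusion of function fields -/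
theorem bar_le {N N' : ℕ} [NeZero N] [NeZero N'] (hNN' : N ∣ N') :
    modularFunctionFieldBar N ≤ modularFunctionFieldBar N' := by
  rw [bar_eq, bar_eq]
  exact full_degeneracyC_le _ hNN'

def inclBar {N N' : ℕ} [NeZero N] [NeZero N'] (hNN' : N ∣ N') :
    modularFunctionFieldBar N →ₐ[AlgebraicClosure ℚ] modularFunctionFieldBar N' :=
  IntermediateField.inclusion (bar_le hNN')

theorem coe_inclBar {N N' : ℕ} [NeZero N] [NeZero N'] (hNN' : N ∣ N')
    (f : modularFunctionFieldBar N) :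
    (inclBar hNN' f : LaurentSeries (AlgebraicClosure ℚ)) = f :=
  IntermediateField.coe_inclusion _ _

variable {A : ValuationSubring (AlgebraicClosure ℚ)} {ℓ : ℕ} (hℓ : ℓ.Prime)
  (hA : A.LiesOverPrime ℓ)

/-- inclusion of function fields in characteristic `ℓ` -/
theorem FC_le (A : ValuationSubring (AlgebraicClosure ℚ)) {N N' : ℕ} [NeZero N] [NeZero N']
    (hNN' : N ∣ N') : FC A N ≤ FC A N' :=
  full_degeneracyC_le _ hNN'

/-- the subfield `F̃_N` of `F̃_{N'}`. -/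
def subB (A : ValuationSubring (AlgebraicClosure ℚ)) {N N' : ℕ} [NeZero N] [NeZero N']
    (hNN' : N ∣ N') : IntermediateField (RF A) (FC A N') :=
  IntermediateField.restrict (FC_le A hNN')

theorem mem_subB {N N' : ℕ} [NeZero N] [NeZero N'] (hNN' : N ∣ N') (x : FC A N') :
    x ∈ subB A hNN' ↔ (x : LaurentSeries (RF A)) ∈ FC A N :=
  IntermediateField.mem_restrict _ _

/-- degree comparison -/
theorem finrank_subB {N N' : ℕ} [NeZero N] [NeZero N'] (hNN' : N ∣ N') (h : DegC A N)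
    (h' : DegC A N') : dedekindPsi N * finrank (subB A hNN') (FC A N') = dedekindPsi N' := by
  have h1 := finrank_restrict (FC_le A hNN') (jC A N)
  have h2 : IntermediateField.inclusion (FC_le A hNN') (jC A N) = jC A N' := Subtype.ext rfl
  rw [h2] at h1
  exact (congrArg (· * _) (show finrank (RF A)⟮jC A N⟯ (FC A N) = dedekindPsi N from h)).symm.trans
    (h1.trans h')

theorem finrank_inclBar {N N' : ℕ} [NeZero N] [NeZero N'] (hNN' : N ∣ N') :
    dedekindPsi N * finrankAlong (AlgebraicClosure ℚ) (inclBar hNN') = dedekindPsi N' := by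
  have h1 := TEll.finrank_mul_finrankAlong (inclBar hNN') (X0Emb.jF N)
  have h2 : inclBar hNN' (X0Emb.jF N) = X0Emb.jF N' := Subtype.ext rfl
  rw [h2] at h1
  exact (congrArg (· * _) (TEll.finrank_jF0 N)).symm.trans (h1.trans (TEll.finrank_jF0 N'))

theorem finrank_eq {N N' : ℕ} [NeZero N] [NeZero N'] (hNN' : N ∣ N') (h : DegC A N)
    (h' : DegC A N') : finrankAlong (AlgebraicClosure ℚ) (inclBar hNN') =
      finrank (subB A hNN') (FC A N') :=
  Nat.eq_of_mul_eq_mul_left (TEll.dedekindPsi_pos N)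
    ((finrank_inclBar hNN').trans (finrank_subB hNN' h h').symm)

theorem finiteDimensional_subB {N N' : ℕ} [NeZero N] [NeZero N'] (hNN' : N ∣ N') (h : DegC A N)
    (h' : DegC A N') : FiniteDimensional (subB A hNN') (FC A N') := by
  apply FiniteDimensional.of_finrank_pos
  have h1 := finrank_subB hNN' h h'
  have h2 := TEll.dedekindPsi_pos N'
  rcases Nat.eq_zero_or_pos (finrank (subB A hNN') (FC A N')) with h3 | h3
  · rw [h3, mul_zero] at h1
    omega
  · exact h3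

section Setup

variable {N N' : ℕ} [NeZero N] [NeZero N'] (hNN' : N ∣ N') (h : DegC A N) (h' : DegC A N')

include hℓ hA h in
theorem gaussRed_mem {x : modularFunctionFieldBar N}
    (hx : (x : LaurentSeries (AlgebraicClosure ℚ)) ∈ gaussSubring A) :
    gaussRed A ⟨x, hx⟩ ∈ FC A N := by
  have h1 := coe_gauss_ρ (hℓ := hℓ) (hA := hA) (h := h) (x := x) (mem_gauss_O.mpr hx)
  rw [← h1]
  exact Subtype.mem _

theorem coe_gauss_ρ_incl {f : modularFunctionFieldBar N}
    (hf : inclBar hNN' f ∈ (gauss hℓ hA N' h').O)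
    (hx : (f : LaurentSeries (AlgebraicClosure ℚ)) ∈ gaussSubring A) :
    ((gauss hℓ hA N' h').ρ ⟨inclBar hNN' f, hf⟩ : LaurentSeries (RF A)) =
      gaussRed A ⟨f, hx⟩ := by
  rw [coe_gauss_ρ]
  exact congrArg (gaussRed A) (Subtype.ext (coe_inclBar hNN' f))

theorem mem_gauss_incl {f : modularFunctionFieldBar N} :
    inclBar hNN' f ∈ (gauss hℓ hA N' h').O ↔
      (f : LaurentSeries (AlgebraicClosure ℚ)) ∈ gaussSubring A := by
  rw [mem_gauss_O, coe_inclBar]

include h in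
theorem reduces_into_B (f : modularFunctionFieldBar N)
    (hf : inclBar hNN' f ∈ (gauss hℓ hA N' h').O) :
    (gauss hℓ hA N' h').ρ ⟨inclBar hNN' f, hf⟩ ∈ subB A hNN' := by
  rw [mem_subB, coe_gauss_ρ_incl hℓ hA hNN' h' hf ((mem_gauss_incl hℓ hA hNN' h').mp hf)]
  exact gaussRed_mem hℓ hA h _

variable [IsFF (RF A) (FC A N')] (R : RedMap (gauss hℓ hA N' h'))

/-- The concrete setup. -/
def setup : Setup (AlgebraicClosure ℚ) (modularFunctionFieldBar N) (modularFunctionFieldBar N')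
    (RF A) (FC A N') where
  G := gauss hℓ hA N' h'
  R := R
  φ := inclBar hNN'
  hφ := isIntegralAlong _
  hFI := fundamentalIdentityAlong _ _
  B := subB A hNN'
  hB := reduces_into_B hℓ hA hNN' h h'


theorem setup_φ : (setup hℓ hA hNN' h h' R).φ = inclBar hNN' := rfl

theorem setup_mem {f : modularFunctionFieldBar N} :
    (setup hℓ hA hNN' h h' R).φ f ∈ (setup hℓ hA hNN' h h' R).G.O ↔
      (f : LaurentSeries (AlgebraicClosure ℚ)) ∈ gaussSubring A :=
  mem_gauss_incl hℓ hA hNN' h'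

theorem setup_ρ {f : modularFunctionFieldBar N}
    (hf : (setup hℓ hA hNN' h h' R).φ f ∈ (setup hℓ hA hNN' h h' R).G.O)
    (hx : (f : LaurentSeries (AlgebraicClosure ℚ)) ∈ gaussSubring A) :
    (((setup hℓ hA hNN' h h' R).G.ρ ⟨(setup hℓ hA hNN' h h' R).φ f, hf⟩ : FC A N') :
      LaurentSeries (RF A)) = gaussRed A ⟨f, hx⟩ :=
  coe_gauss_ρ_incl hℓ hA hNN' h' hf hx

omit [NeZero N] in
theorem coe_galois (σ : AlgebraicClosure ℚ ≃ₐ[ℚ] AlgebraicClosure ℚ)
    (f : modularFunctionFieldBar N) :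
    ((arithmeticGalois (modularFunctionFieldFull N) σ • f : modularFunctionFieldBar N) :
      LaurentSeries (AlgebraicClosure ℚ)) =
      coeffMap (σ : AlgebraicClosure ℚ →+* AlgebraicClosure ℚ)
        (f : LaurentSeries (AlgebraicClosure ℚ)) :=
  coe_arithmeticGalois_smul _ _ _

theorem setup_inertia_fun {σ : AlgebraicClosure ℚ ≃ₐ[ℚ] AlgebraicClosure ℚ}
    (hσ : σ ∈ A.inertiaSubgroupIn ℚ) (f : modularFunctionFieldBar N)
    (hf : (setup hℓ hA hNN' h h' R).φ f ∈ (setup hℓ hA hNN' h h' R).G.O) :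
    ∃ hf' : (setup hℓ hA hNN' h h' R).φ (arithmeticGalois (modularFunctionFieldFull N) σ • f) ∈
      (setup hℓ hA hNN' h h' R).G.O,
      (setup hℓ hA hNN' h h' R).G.ρ ⟨_, hf'⟩ = (setup hℓ hA hNN' h h' R).G.ρ ⟨_, hf⟩ := by
  have hf1 := (setup_mem hℓ hA hNN' h h' R).mp hf
  obtain ⟨h1, h2⟩ := gaussRed_inertia hσ ⟨_, hf1⟩
  have h3 : ((arithmeticGalois (modularFunctionFieldFull N) σ • f : modularFunctionFieldBar N) :
      LaurentSeries (AlgebraicClosure ℚ)) ∈ gaussSubring A := by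
    rw [coe_galois]; exact h1
  refine ⟨(setup_mem hℓ hA hNN' h h' R).mpr h3, ?_⟩
  apply Subtype.ext
  rw [setup_ρ hℓ hA hNN' h h' R _ h3, setup_ρ hℓ hA hNN' h h' R _ hf1, ← h2]
  exact congrArg (gaussRed A) (Subtype.ext (coe_galois σ f))

/-- inertia acts trivially -/
theorem setup_inertia {σ : AlgebraicClosure ℚ ≃ₐ[ℚ] AlgebraicClosure ℚ}
    (hσ : σ ∈ A.inertiaSubgroupIn ℚ) (x : JZero N) :
    (setup hℓ hA hNN' h h' R).red (σ • x) = (setup hℓ hA hNN' h h' R).red x :=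
  (setup hℓ hA hNN' h h' R).red_smul_eq (arithmeticGalois (modularFunctionFieldFull N) σ)
    (setup_inertia_fun hℓ hA hNN' h h' R hσ) x

section Char

variable [Fact ℓ.Prime] [CharP (RF A) ℓ] [PerfectRing (RF A) ℓ]

/-- coefficientwise Frobenius -/
def Phi (A : ValuationSubring (AlgebraicClosure ℚ)) (ℓ : ℕ) [Fact ℓ.Prime] [CharP (RF A) ℓ]
    [PerfectRing (RF A) ℓ] (N' : ℕ) : SemilinearAut (RF A) (FC A N') := frobAut (RF A) ℓ N'

omit [IsFF (RF A) (FC A N')] in
theorem Phi_mem {x : FC A N'} (hx : x ∈ subB A hNN') : Phi A ℓ N' • x ∈ subB A hNN' := by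
  rw [mem_subB] at hx ⊢
  exact coeffMap_mem_fullC (RF A) N _ hx

/-- Frobenius on the target -/
def Frob : (setup hℓ hA hNN' h h' R).Tgt →+ (setup hℓ hA hNN' h h' R).Tgt :=
  actB (subB A hNN') (Phi A ℓ N') (fun _ hx => Phi_mem hNN' hx)

theorem setup_frobenius_fun {σ : AlgebraicClosure ℚ ≃ₐ[ℚ] AlgebraicClosure ℚ}
    (hσ : A.IsFrobeniusAt σ ℓ) (f : modularFunctionFieldBar N)
    (hf : (setup hℓ hA hNN' h h' R).φ f ∈ (setup hℓ hA hNN' h h' R).G.O) :
    ∃ hf' : (setup hℓ hA hNN' h h' R).φ (arithmeticGalois (modularFunctionFieldFull N) σ • f) ∈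
      (setup hℓ hA hNN' h h' R).G.O,
      (setup hℓ hA hNN' h h' R).G.ρ ⟨_, hf'⟩ =
        Phi A ℓ N' • (setup hℓ hA hNN' h h' R).G.ρ ⟨_, hf⟩ := by
  have hf1 := (setup_mem hℓ hA hNN' h h' R).mp hf
  obtain ⟨h1, h2⟩ := gaussRed_frobenius hσ ⟨_, hf1⟩
  have h3 : ((arithmeticGalois (modularFunctionFieldFull N) σ • f : modularFunctionFieldBar N) :
      LaurentSeries (AlgebraicClosure ℚ)) ∈ gaussSubring A := by
    rw [coe_galois]; exact h1
  refine ⟨(setup_mem hℓ hA hNN' h h' R).mpr h3, ?_⟩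
  apply Subtype.ext
  rw [setup_ρ hℓ hA hNN' h h' R _ h3]
  have h4 : gaussRed A ⟨_, h3⟩ = gaussRed A ⟨_, h1⟩ :=
    congrArg (gaussRed A) (Subtype.ext (coe_galois σ f))
  have h5 : ((Phi A ℓ N' • (setup hℓ hA hNN' h h' R).G.ρ
      ⟨(setup hℓ hA hNN' h h' R).φ f, hf⟩ : FC A N') : LaurentSeries (RF A)) =
      coeffMap (frobenius (RF A) ℓ) (((setup hℓ hA hNN' h h' R).G.ρ
        ⟨(setup hℓ hA hNN' h h' R).φ f, hf⟩ : FC A N') : LaurentSeries (RF A)) :=
    coe_frobAut_smul (RF A) ℓ N' _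
  rw [h5, setup_ρ hℓ hA hNN' h h' R hf hf1, h4]
  exact h2

theorem setup_frobenius {σ : AlgebraicClosure ℚ ≃ₐ[ℚ] AlgebraicClosure ℚ}
    (hσ : A.IsFrobeniusAt σ ℓ) (x : JZero N) :
    (setup hℓ hA hNN' h h' R).red (σ • x) =
      Frob hℓ hA hNN' h h' R ((setup hℓ hA hNN' h h' R).red x) :=
  (setup hℓ hA hNN' h h' R).red_smul (arithmeticGalois (modularFunctionFieldFull N) σ)
    (Phi A ℓ N') (fun _ hx => Phi_mem hNN' hx) (setup_frobenius_fun hℓ hA hNN' h h' R hσ) x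

theorem setup_hecke (hN : ¬ ℓ ∣ N) (x : JZero N) :
    Frob hℓ hA hNN' h h' R (Frob hℓ hA hNN' h h' R ((setup hℓ hA hNN' h h' R).red x)) -
      Frob hℓ hA hNN' h h' R ((setup hℓ hA hNN' h h' R).red (heckeOperatorBar N ⟨ℓ, hℓ⟩ x)) +
        ℓ • (setup hℓ hA hNN' h h' R).red x = 0 := by
  have : NeZero ℓ := ⟨hℓ.ne_zero⟩
  refine Setup.red_hecke (setup hℓ hA hNN' h h' R) (TEll.heckeDiv N ℓ)
    (fun f => TEll.TEll (AlgebraicClosure ℚ) N ℓ f)
    (finrankAlong (AlgebraicClosure ℚ) (heckeBetaBar (AlgebraicClosure ℚ) N ℓ))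
    (fun v => TEll.heckeDiv_nonneg (single_nonneg v)) (fun v => ?_)
    (fun f hf => TEll.heckeDiv_div hf) (Phi A ℓ N') (fun _ hx => Phi_mem hNN' hx) ℓ
    (fun f hf _ => ?_) (fun x => heckeOperatorBar N ⟨ℓ, hℓ⟩ x)
    (fun D => TEll.heckeOperatorBar_mk ⟨ℓ, hℓ⟩ D) x
  · rw [TEll.degree_heckeDiv, degree_single_one, mul_one]
  · have hf1 := (setup_mem hℓ hA hNN' h h' R).mp hf
    have e1 := TEll.coe_TEll_bar N ℓ hℓ hN f
    have h1 : (TEll.TEll (AlgebraicClosure ℚ) N ℓ f : LaurentSeries (AlgebraicClosure ℚ)) ∈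
        gaussSubring A := by
      rw [e1]
      exact TEll.TSer_mem_gaussSubring A ℓ hf1
    refine ⟨(setup_mem hℓ hA hNN' h h' R).mpr h1, ?_⟩
    apply Subtype.ext
    rw [setup_ρ hℓ hA hNN' h h' R _ h1]
    have h2 : gaussRed A ⟨(TEll.TEll (AlgebraicClosure ℚ) N ℓ f :
        LaurentSeries (AlgebraicClosure ℚ)), h1⟩ =
        gaussRed A ⟨TEll.TSer (AlgebraicClosure ℚ) ℓ f, TEll.TSer_mem_gaussSubring A ℓ hf1⟩ :=
      congrArg (gaussRed A) (Subtype.ext e1)
    rw [h2]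
    refine (TEll.gaussRed_TSer_eq A ℓ ⟨_, hf1⟩).trans ?_
    rw [← setup_ρ hℓ hA hNN' h h' R hf hf1]
    have h3 := TEll.qExpand_eq_pow ℓ _ _ (coe_frobAut_inv_smul (RF A) ℓ N'
      ((setup hℓ hA hNN' h h' R).G.ρ ⟨(setup hℓ hA hNN' h h' R).φ f, hf⟩))
    rw [h3]
    rfl

end Char

theorem setup_injective [CharP (RF A) ℓ]
    (hg : genusFF (AlgebraicClosure ℚ) (modularFunctionFieldBar N') ≤ genusFF (RF A) (FC A N'))
    {m : ℕ} (hm : ¬ ℓ ∣ m) (x : JZero N) (hx : m • x = 0)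
    (hr : (setup hℓ hA hNN' h h' R).red x = 0) : x = 0 := by
  have hm' : (m : RF A) ≠ 0 := fun h0 => hm ((CharP.cast_eq_zero_iff (RF A) ℓ m).mp h0)
  have hm0 : m ≠ 0 := by rintro rfl; exact hm (dvd_zero _)
  refine (setup hℓ hA hNN' h h' R).red_injective_of_torsion (finiteDimensional_subB hNN' h h')
    (finrank_eq hNN' h h') hm' (fun D hD hrD => ?_) x hx hr
  have hdeg : Divisor.degree D = 0 := by
    obtain ⟨f, _, hf⟩ := isPrincipal_iff.mp hD
    have h1 := congrArg Divisor.degree hf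
    rw [degree_div, map_nsmul, nsmul_eq_mul] at h1
    exact (mul_eq_zero.mp h1).resolve_left (by exact_mod_cast hm0)
  exact RedInj.isPrincipal_of_redMap R hg hm' hdeg hD hrD

end Setup

end Fermat.Agent.S37aux
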