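import Fermat.Agent.Deuring.Place
import Fermat.Agent.S37aux.Final
import Fermat.Agent.HeckeComm.Galois

/-!
# `ReductionInputsModL` at level `N`
-/

set_option autoImplicit false

noncomputable section

open ModularCurve HahnSeries AlgebraicCurve Module Fermat.Agent.GaussVal Fermat.Agent.Deuring
open Fermat.Agent.FF Fermat.Agent.RR
open scoped IntermediateField Fermat.Agent.GaussVal

namespace Fermat.Agent.S37aux

/-- inclusion of the function fields in characteristic `ℓ` -/
def inclFC (A : ValuationSubring (AlgebraicClosure ℚ)) {N N' : ℕ} [NeZero N] [NeZero N']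
    (hNN' : N ∣ N') : FC A N →ₐ[RF A] FC A N' :=
  IntermediateField.inclusion (FC_le A hNN')

variable {A : ValuationSubring (AlgebraicClosure ℚ)} {ℓ : ℕ} (hℓ : ℓ.Prime)
  (hA : A.LiesOverPrime ℓ) {N N' : ℕ} [NeZero N] [NeZero N'] (hNN' : N ∣ N')

theorem coe_inclFC (f : FC A N) : (inclFC A hNN' f : LaurentSeries (RF A)) = f :=
  IntermediateField.coe_inclusion _ _

theorem finrankAlong_inclFC (h : DegC A N) (h' : DegC A N') :
    dedekindPsi N * finrankAlong (RF A) (inclFC A hNN') = dedekindPsi N' := by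
  have h1 := TEll.finrank_mul_finrankAlong (inclFC A hNN') (jC A N)
  have h2 : inclFC A hNN' (jC A N) = jC A N' := Subtype.ext rfl
  rw [h2] at h1
  exact (congrArg (· * _) (show finrank (RF A)⟮jC A N⟯ (FC A N) = dedekindPsi N from h)).symm.trans
    (h1.trans h')

theorem finrankAlong_eq (h : DegC A N) (h' : DegC A N') :
    finrankAlong (AlgebraicClosure ℚ) (inclBar hNN') = finrankAlong (RF A) (inclFC A hNN') :=
  Nat.eq_of_mul_eq_mul_left (TEll.dedekindPsi_pos N)
    ((finrank_inclBar hNN').trans (finrankAlong_inclFC hNN' h h').symm)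

/-- compatibility of the two reduction maps -/
theorem gauss_compat (h : DegC A N) (h' : DegC A N') {f : modularFunctionFieldBar N}
    (hf : f ∈ (gauss hℓ hA N h).O) :
    ∃ hf' : inclBar hNN' f ∈ (gauss hℓ hA N' h').O,
      (gauss hℓ hA N' h').ρ ⟨inclBar hNN' f, hf'⟩ = inclFC A hNN' ((gauss hℓ hA N h).ρ ⟨f, hf⟩) := by
  have hx := mem_gauss_O.mp hf
  refine ⟨(mem_gauss_incl hℓ hA hNN' h').mpr hx, ?_⟩
  apply Subtype.ext
  rw [coe_gauss_ρ_incl hℓ hA hNN' h' _ hx, coe_inclFC, coe_gauss_ρ]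

include hNN' in
/-- **The reduction map on places at level `N`**, from the reduction data at level `N'`. -/
theorem exists_placeMap_of (h : DegC A N) (h' : DegC A N')
    (hg : genusFF (AlgebraicClosure ℚ) (modularFunctionFieldBar N') ≤ genusFF (RF A) (FC A N'))
    (hdiv : ∀ n : ℕ, n ≠ 0 → ∀ x : JZero N, ∃ y : JZero N, n • y = x) :
    haveI := h.isFF
    ∃ r : Place (AlgebraicClosure ℚ) (modularFunctionFieldBar N) → Place (RF A) (FC A N),
      ∀ (f : modularFunctionFieldBar N) (hf : f ∈ (gauss hℓ hA N h).O),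
        (gauss hℓ hA N h).ρ ⟨f, hf⟩ ≠ 0 →
          Finsupp.mapDomain r (div f) = div ((gauss hℓ hA N h).ρ ⟨f, hf⟩) := by
  have := h.isFF
  have := h'.isFF
  obtain ⟨R, _⟩ := (gauss hℓ hA N' h').exists_redMap_of_le hg
  set S := setup hℓ hA hNN' h h' R with hS
  set n := finrankAlong (RF A) (inclFC A hNN') with hn
  have hn0 : n ≠ 0 := by
    intro h0
    have h1 := finrankAlong_inclFC hNN' h h'
    rw [← hn, h0, mul_zero] at h1
    exact absurd h1.symm (TEll.dedekindPsi_pos N').ne'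
  have hnS : finrankAlong (AlgebraicClosure ℚ) S.φ = n := finrankAlong_eq hNN' h h'
  obtain ⟨r, _, hr⟩ := exists_placeMap (gauss hℓ hA N h) hn0
    ((Divisor.pushforwardAlong (inclFC A hNN') (isIntegralAlong _)).comp S.tot)
    (fun v => by
      rw [AddMonoidHom.comp_apply]
      exact TEll.pushforwardAlong_nonneg _ _ (S.tot_single_nonneg v))
    (fun v => by
      rw [AddMonoidHom.comp_apply, Divisor.degree_pushforwardAlong, S.degree_tot_single, hnS])
    (fun f hf h0 => by
      obtain ⟨hf', h1⟩ := gauss_compat hℓ hA hNN' h h' hf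
      have h2 : S.G.ρ ⟨S.φ f, hf'⟩ ≠ 0 := by
        intro h3
        have h4 : inclFC A hNN' ((gauss hℓ hA N h).ρ ⟨f, hf⟩) = 0 := h1.symm.trans h3
        exact h0 ((map_eq_zero_iff (inclFC A hNN') (inclFC A hNN').injective).mp h4)
      rw [AddMonoidHom.comp_apply, S.tot_div hf' h2]
      have h5 : S.G.ρ ⟨S.φ f, hf'⟩ = inclFC A hNN' ((gauss hℓ hA N h).ρ ⟨f, hf⟩) := h1
      rw [h5, HeckeComm.pushforwardAlong_div (inclFC A hNN') (isIntegralAlong _)
        (finiteAlong _) (normFormulaAlong _ _) (h5 ▸ h2), TEll.normAlong_algebraMap, Deuring.div_pow])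
    (hdiv n hn0)
  exact ⟨r, hr⟩

/-- expansions of polynomials in the `j(q ^ d)` can be scaled to be primitive. -/
theorem exists_primitive_of_mem_adjoin (hℓ : ℓ.Prime) (hA : A.LiesOverPrime ℓ) (N : ℕ)
    {a : LaurentSeries (AlgebraicClosure ℚ)}
    (ha : a ∈ Algebra.adjoin (AlgebraicClosure ℚ) (divisorExpansionsC (AlgebraicClosure ℚ) N))
    (ha0 : a ≠ 0) :
    ∃ (c : AlgebraicClosure ℚ) (Y : LaurentSeries A), c ≠ 0 ∧
      algebraMap (AlgebraicClosure ℚ) (LaurentSeries (AlgebraicClosure ℚ)) c * incl A Y = a ∧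
        redS A Y ≠ 0 := by
  have := isAlgebraic_QQ
  have h1 : a ∈ intAlg (AlgebraicClosure ℚ) := by
    refine Algebra.adjoin_mono ?_ ha
    rintro x ⟨d, hd, _, rfl⟩
    refine ⟨qExpand ℤ d (jqModC ℤ), ?_⟩
    rw [coeffMap_qExpand, coeffMap_jqModC]
  obtain ⟨c, Y, _, hc, hY, hY', _⟩ := (scalable_of_mem_intAlg hℓ hA h1 ha0).exists_primitive
  exact ⟨c, Y, hc, hY, hY'⟩

/-- the divisor of a scaled polynomial in the `j(q ^ d)` is an integral principal divisor. -/
theorem div_mem_integral (hℓ : ℓ.Prime) (hA : A.LiesOverPrime ℓ) (h : DegC A N)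
    {f : modularFunctionFieldBar N}
    (hf : (f : LaurentSeries (AlgebraicClosure ℚ)) ∈ Algebra.adjoin (AlgebraicClosure ℚ)
      (divisorExpansionsC (AlgebraicClosure ℚ) N)) (hf0 : f ≠ 0) :
    (div f : Divisor (AlgebraicClosure ℚ) (modularFunctionFieldBar N)) ∈
      integralPrincipalDivisors A (IsLocalRing.residue A) N := by
  obtain ⟨c, Y, hc, hY, hY0⟩ := exists_primitive_of_mem_adjoin hℓ hA N hf
    (fun h0 => hf0 (Subtype.ext h0))
  have h1 : incl A Y = ((c⁻¹ • f : modularFunctionFieldBar N) :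
      LaurentSeries (AlgebraicClosure ℚ)) := by
    have h2 : ((c⁻¹ • f : modularFunctionFieldBar N) : LaurentSeries (AlgebraicClosure ℚ)) =
        algebraMap _ _ c⁻¹ * (f : LaurentSeries (AlgebraicClosure ℚ)) := by
      rw [IntermediateField.coe_smul, Algebra.smul_def]
    rw [h2, ← hY, ← mul_assoc, ← map_mul, inv_mul_cancel₀ hc, map_one, one_mul]
  have hmem : incl A Y ∈ modularFunctionFieldBar N := by
    rw [h1]; exact Subtype.mem _
  have h3 : redS A Y ∈ FC A N := by
    have h4 := gaussRed_mem hℓ hA h (x := ⟨incl A Y, hmem⟩) (incl_mem Y)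
    rwa [gaussRed_incl] at h4
  refine ⟨Y, hmem, h3, hY0, fun P => ?_⟩
  have h5 : (⟨incl A Y, hmem⟩ : modularFunctionFieldBar N) = c⁻¹ • f := Subtype.ext h1
  have h6 : (div f : Divisor (AlgebraicClosure ℚ) (modularFunctionFieldBar N)) =
      div (c⁻¹ • f) := (div_smul (inv_ne_zero hc) f).symm
  rw [h6, div_apply]
  exact congrArg P.ord h5.symm

theorem principalGeneratedByIntegral (hℓ : ℓ.Prime) (hA : A.LiesOverPrime ℓ) (h : DegC A N) :
    PrincipalGeneratedByIntegral A (IsLocalRing.residue A) N := by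
  intro D hD
  obtain ⟨f, hf0, rfl⟩ := isPrincipal_iff.mp hD
  have hf : (f : LaurentSeries (AlgebraicClosure ℚ)) ∈
      IntermediateField.adjoin (AlgebraicClosure ℚ) (divisorExpansionsC (AlgebraicClosure ℚ) N) := by
    have := (bar_eq N).le f.2
    exact this
  obtain ⟨a, ha, b, hb, hb0, hab⟩ := exists_div_of_mem_adjoin hf
  have hle : ∀ x ∈ Algebra.adjoin (AlgebraicClosure ℚ)
      (divisorExpansionsC (AlgebraicClosure ℚ) N), x ∈ modularFunctionFieldBar N := by
    intro x hx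
    rw [bar_eq]
    exact IntermediateField.algebra_adjoin_le_adjoin _ _ hx
  have ha0 : a ≠ 0 := by
    rw [← hab]
    exact mul_ne_zero (fun h0 => hf0 (Subtype.ext h0)) hb0
  have h1 : f * ⟨b, hle b hb⟩ = ⟨a, hle a ha⟩ := Subtype.ext hab
  have hb' : (⟨b, hle b hb⟩ : modularFunctionFieldBar N) ≠ 0 :=
    fun h0 => hb0 (congrArg Subtype.val h0)
  have ha' : (⟨a, hle a ha⟩ : modularFunctionFieldBar N) ≠ 0 :=
    fun h0 => ha0 (congrArg Subtype.val h0)
  have h2 : (div f : Divisor (AlgebraicClosure ℚ) (modularFunctionFieldBar N)) =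
      div (⟨a, hle a ha⟩ : modularFunctionFieldBar N) - div (⟨b, hle b hb⟩ :
        modularFunctionFieldBar N) := by
    rw [← h1, RR.div_mul hf0 hb', add_sub_cancel_right]
  rw [h2]
  exact AddSubgroup.sub_mem _
    (AddSubgroup.subset_closure (div_mem_integral hℓ hA h ha ha'))
    (AddSubgroup.subset_closure (div_mem_integral hℓ hA h hb hb'))

include hNN' in
/-- **(RI)** The reduction inputs at level `N`. -/
theorem reductionInputsModL_of (hℓ : ℓ.Prime) (hA : A.LiesOverPrime ℓ) (h : DegC A N)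
    (h' : DegC A N')
    (hg : genusFF (AlgebraicClosure ℚ) (modularFunctionFieldBar N') ≤ genusFF (RF A) (FC A N'))
    (hdiv : ∀ n : ℕ, n ≠ 0 → ∀ x : JZero N, ∃ y : JZero N, n • y = x) :
    ReductionInputsModL A N := by
  have := h.isFF
  obtain ⟨r, hr⟩ := exists_placeMap_of hℓ hA hNN' h h' hg hdiv
  refine ⟨r, ⟨fun P => by rw [deg_eq_one, deg_eq_one], ?_⟩, principalGeneratedByIntegral hℓ hA h⟩
  intro y hy hyk hne D hD Q
  have hO : (⟨incl A y, hy⟩ : modularFunctionFieldBar N) ∈ (gauss hℓ hA N h).O :=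
    mem_gauss_O.mpr (incl_mem y)
  have hρ : (gauss hℓ hA N h).ρ ⟨_, hO⟩ = ⟨redS A y, hyk⟩ := by
    apply Subtype.ext
    rw [coe_gauss_ρ]
    exact gaussRed_incl y (incl_mem y)
  have h0 : (gauss hℓ hA N h).ρ ⟨_, hO⟩ ≠ 0 := by
    rw [hρ]
    exact fun h0 => hne (congrArg Subtype.val h0)
  have h1 := hr _ hO h0
  have h2 : D = div (⟨incl A y, hy⟩ : modularFunctionFieldBar N) :=
    Finsupp.ext fun P => (hD P).trans (div_apply _ P).symm
  rw [h2]
  have h3 := congrArg (fun E : Divisor (RF A) (FC A N) => E Q) h1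
  refine h3.trans ?_
  rw [div_apply, hρ]

end Fermat.Agent.S37aux
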